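import Fermat.Agent.S48.ModL.Sup.Defs
import Fermat.Agent.S48.ModL.AD.Degree
import Fermat.Agent.GAL.Sup.K2ab

/-! # S48 / MODL, SUPPORT chain: the elementary leaves K1c, K2a, K2b
(port of `GAL/Sup/K2ab.lean` to a general level `L : Lvl`) -/

set_option autoImplicit false

namespace Fermat.Agent.S48.ModL

open Fermat.Agent.S24 CongruenceSubgroup ModularCurve AlgebraicCurve
open scoped MatrixGroups
open Fermat.Agent.GAL (mem_range_of_ord_eq_zero degZero_smul_cancel exists_complex_of_pow_eq_one)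

/-- **K1c**: a function whose divisor is divisible by `m` gives a degree zero divisor. -/
theorem exists_degZero_of_dvd_ord' (L : Lvl) (m : ℕ) [NeZero m] (u : L.FK Kb) (hu : u ≠ 0)
    (h : ∀ v : Place Kb (L.FK Kb), (m : ℤ) ∣ v.ord u) :
    ∃ D : Divisor.degZero (K := Kb) (F := L.FK Kb),
      ∀ v : Place Kb (L.FK Kb), v.ord u = (m : ℤ) * (D : Divisor Kb (L.FK Kb)) v := by
  have hy := L.isFiniteParam_jK iotaK.toRingHom
  obtain ⟨D0, hD0⟩ := hy.exists_divisor u
  have hdeg := hy.degree_eq_zero_of_principal u hu D0 hD0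
  have hm : (m : ℤ) ≠ 0 := by exact_mod_cast NeZero.ne m
  set D : Divisor Kb (L.FK Kb) := Finsupp.mapRange (fun n : ℤ => n / (m : ℤ)) (by simp) D0 with hD
  have hDv : ∀ v, v.ord u = (m : ℤ) * D v := by
    intro v
    rw [hD, Finsupp.mapRange_apply, hD0 v, Int.mul_ediv_cancel' (h v)]
  have hmD : (m : ℤ) • D = D0 := by
    ext v
    rw [Finsupp.smul_apply, smul_eq_mul, ← hDv v, hD0 v]
  refine ⟨⟨D, ?_⟩, hDv⟩
  rw [Divisor.mem_degZero]
  apply degZero_smul_cancel hm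
  rw [hmD, hdeg]

variable {L : Lvl} {m : ℕ} [NeZero m]

theorem HasChar.mul {χ χ' : L.G →* ℂˣ} {h h' : Mer} (hh : HasChar L χ h)
    (hh' : HasChar L χ' h') : HasChar L (χ * χ') (h * h') := by
  intro g
  rw [map_mul, hh g, hh' g, MonoidHom.mul_apply, Units.val_mul, map_mul]
  ring

/-- **K2a** -/
theorem IsKummer.mul' {χ χ' : L.G →* ℂˣ} {x x' : L.Jac} (h : IsKummer L m χ x)
    (h' : IsKummer L m χ' x') : IsKummer L m (χ * χ') (x + x') := by
  obtain ⟨D, u, f, hu, hD, huf, hf, rfl⟩ := h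
  obtain ⟨D', u', f', hu', hD', huf', hf', rfl⟩ := h'
  refine ⟨D + D', u * u', f * f', mul_ne_zero hu hu', fun v => ?_, ?_, hf.mul hf', rfl⟩
  · rw [v.ord_mul hu hu', hD v, hD' v, AddSubgroup.coe_add, Finsupp.add_apply]
    ring
  · rw [map_mul, huf, huf', mul_pow]

/-- **K2b** -/
theorem IsKummer.eq_one_of_zero' {χ : L.G →* ℂˣ} (h : IsKummer L m χ 0) : χ = 1 := by
  obtain ⟨D, u, f, hu, hD, huf, hf, h0⟩ := h
  have hy := L.isFiniteParam_jK iotaK.toRingHom
  have hm : m ≠ 0 := NeZero.ne m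
  -- `D` is principal
  have h1 : D ∈ (Divisor.principal (K := Kb) (F := L.FK Kb)).addSubgroupOf
      (Divisor.degZero (K := Kb) (F := L.FK Kb)) :=
    (QuotientAddGroup.eq_zero_iff D).mp h0.symm
  rw [AddSubgroup.mem_addSubgroupOf] at h1
  obtain ⟨w, hw, hDw⟩ := h1
  -- `u / w ^ m` is constant
  have h2 : ∀ v : Place Kb (L.FK Kb), v.ord (u * (w ^ m)⁻¹) = 0 := by
    intro v
    rw [v.ord_mul hu (inv_ne_zero (pow_ne_zero _ hw)), v.ord_inv, hD v, hDw v,
      ← zpow_natCast, v.ord_zpow]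
    ring
  obtain ⟨a, ha⟩ := mem_range_of_ord_eq_zero hy _ h2
  have huw : u = algebraMap Kb (L.FK Kb) a * w ^ m := by
    rw [ha]
    field_simp
  have hf0 : f ≠ 0 := by
    rintro rfl
    rw [zero_pow hm] at huf
    exact hu ((map_eq_zero (L.thetaK iotaK.toRingHom)).mp huf)
  obtain ⟨b, hb⟩ := IsAlgClosed.exists_pow_nat_eq a (Nat.pos_of_ne_zero hm)
  set t : L.FK Kb := algebraMap Kb (L.FK Kb) b * w with ht
  have hut : u = t ^ m := by
    rw [huw, ht, mul_pow, ← map_pow, hb]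
  have ht0 : L.thetaK iotaK.toRingHom t ≠ 0 := by
    intro h0
    rw [map_eq_zero] at h0
    rw [hut, h0, zero_pow hm] at hu
    exact hu rfl
  have h3 : (f / L.thetaK iotaK.toRingHom t) ^ m = 1 := by
    rw [div_pow, ← huf, hut, map_pow, div_self (pow_ne_zero _ ht0)]
  obtain ⟨ζ, -, hζ⟩ := exists_complex_of_pow_eq_one m hm h3
  have hft : f = algebraMap ℂ Mer ζ * L.thetaK iotaK.toRingHom t := by
    rw [← hζ]
    field_simp
  ext g
  have h4 := hf g
  have h5 : actMer (g : SL(2, ℤ)) f = f := by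
    rw [hft, map_mul, AlgEquiv.commutes, L.actMer_thetaK _ g.2]
  rw [h5] at h4
  have h6 : algebraMap ℂ Mer (χ g : ℂ) = algebraMap ℂ Mer 1 := by
    rw [map_one]
    exact (mul_right_cancel₀ hf0 (by rw [one_mul]; exact h4)).symm
  simpa using (FaithfulSMul.algebraMap_injective ℂ Mer) h6

end Fermat.Agent.S48.ModL
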