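import Fermat.Agent.S48.ModL.Sup.K2ab
import Fermat.Agent.S48.ModL.AD.Range
import Fermat.Agent.GAL.Sup.LaurentRoot
import Fermat.Agent.GAL.DescentBaseChange

/-!
# S48 / MODL, SUPPORT chain, leaf K2c: uniqueness of Kummer classes
(port of `GAL/Sup/K2c.lean` to a general level `L : Lvl`)

If `g ∈ Mer` is `L.G`-invariant and `g ^ m = θ(f)`, `f ∈ L.FK Qbar`, then
`f = a w ^ m` with `a ∈ Qbar`, `w ∈ L.FK Qbar`.
-/

set_option autoImplicit false

open UpperHalfPlane hiding I
open Function ModularCurve CongruenceSubgroup AlgebraicCurve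
open scoped Manifold MatrixGroups
open Fermat.Agent.S24 Fermat.Agent.GAL

namespace Fermat.Agent.S48.ModL

noncomputable section

/-- base change `Qbar → ℂ` of the function field -/
def bcC (L : Lvl) : L.FK Kb →+* L.FK ℂ :=
  ((coeffMap iotaK.toRingHom).comp (L.FKf Kb).val.toRingHom).codRestrict (L.FKf ℂ)
    (fun f => Descent.coeffMap_mem_laurentBaseChange' iotaK.toRingHom _ f.2)

theorem coe_bcC (L : Lvl) (f : L.FK Kb) :
    ((bcC L f : L.FK ℂ) : LaurentSeries ℂ) = coeffMap iotaK.toRingHom (f : LaurentSeries Kb) := rfl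

theorem thetaK_bcC (L : Lvl) (f : L.FK Kb) :
    L.thetaK (RingHom.id ℂ) (bcC L f) = L.thetaK iotaK.toRingHom f := by
  rw [Lvl.thetaK_apply, Lvl.thetaK_apply]
  have : L.thetaPer (RingHom.id ℂ) (bcC L f) = L.thetaPer iotaK.toRingHom f := by
    rw [Lvl.thetaPer_eq_iff, Lvl.toLaurent_thetaPer, coe_bcC]
    exact coeffMap_id _
  rw [this]

variable {L : Lvl} {m : ℕ} [NeZero m]

/-- an element of the function field with an invariant analytic `m`-th root is, up to a constant,
an `m`-th power in the function field -/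
theorem exists_const_mul_pow (f : L.FK Kb) (hf : f ≠ 0) (g : Mer)
    (hg : ∀ γ ∈ L.G, actMer γ g = g) (hgf : g ^ m = L.thetaK iotaK.toRingHom f) :
    ∃ (a : Kb) (w : L.FK Kb), w ≠ 0 ∧ f = algebraMap Kb (L.FK Kb) a * w ^ m := by
  have hm : m ≠ 0 := NeZero.ne m
  obtain ⟨W, hW, h1⟩ := AD.exists_thetaK_eq_of_pow L g hg hm (bcC L f) (by rw [hgf, thetaK_bcC])
  have h2 : (W : LaurentSeries ℂ) ^ m = coeffMap iotaK.toRingHom (f : LaurentSeries Kb) := by
    rw [← coe_bcC, ← h1]
    rfl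
  have hW0 : (W : LaurentSeries ℂ) ≠ 0 := by
    intro h
    rw [h, zero_pow hm] at h2
    apply hf
    apply Subtype.ext
    exact (map_eq_zero (coeffMap iotaK.toRingHom)).1 h2.symm
  obtain ⟨c, w0, hc, hWc⟩ := LaurentRoot.exists_const_mul_coeffMap iotaK.toRingHom m
    (by exact_mod_cast hm) (W : LaurentSeries ℂ) hW0 (f : LaurentSeries Kb) h2
  have hw0 : coeffMap iotaK.toRingHom w0 = HahnSeries.C c⁻¹ * (W : LaurentSeries ℂ) := by
    rw [hWc, ← mul_assoc, ← map_mul, inv_mul_cancel₀ hc, map_one, one_mul]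
  have hw0mem : w0 ∈ L.FKf Kb := by
    apply Descent.mem_laurentBaseChange_of_coeffMap_mem iotaK.toRingHom
    rw [hw0]
    refine mul_mem ?_ W.2
    have : (HahnSeries.C c⁻¹ : LaurentSeries ℂ) = algebraMap ℂ (LaurentSeries ℂ) c⁻¹ := by
      rw [algebraMap_laurentSeries_eq_single, HahnSeries.C_apply]
    rw [this]
    exact (L.FKf ℂ).algebraMap_mem _
  have hw00 : w0 ≠ 0 := by
    rintro rfl
    rw [map_zero, mul_zero] at hWc
    exact hW0 hWc
  set r : LaurentSeries Kb := (f : LaurentSeries Kb) / w0 ^ m with hr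
  have hrC : coeffMap iotaK.toRingHom r = HahnSeries.C (c ^ m) := by
    rw [hr, map_div₀, map_pow, ← h2, hWc, mul_pow, ← map_pow,
      mul_div_cancel_right₀ _ (pow_ne_zero m ((map_ne_zero _).2 hw00))]
  have hr' : r = algebraMap Kb (LaurentSeries Kb) (r.coeff 0) := by
    rw [algebraMap_laurentSeries_eq_single]
    ext k
    rcases eq_or_ne k 0 with rfl | hk
    · rw [HahnSeries.coeff_single_same]
    · rw [HahnSeries.coeff_single_of_ne hk]
      have := congrArg (fun z : LaurentSeries ℂ => z.coeff k) hrC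
      simp only [coeffMap_coeff, HahnSeries.C_apply, HahnSeries.coeff_single_of_ne hk] at this
      exact (map_eq_zero iotaK.toRingHom).1 this
  refine ⟨r.coeff 0, ⟨w0, hw0mem⟩, fun h => hw00 (congrArg Subtype.val h), Subtype.ext ?_⟩
  show (f : LaurentSeries Kb) = algebraMap Kb (LaurentSeries Kb) (r.coeff 0) * w0 ^ m
  rw [← hr', hr, div_mul_cancel₀ _ (pow_ne_zero m hw00)]

/-- **K2c**: uniqueness of Kummer classes. -/
theorem isKummer_unique {χ : L.G →* ℂˣ} {x x' : L.Jac} (h : IsKummer L m χ x)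
    (h' : IsKummer L m χ x') : x = x' := by
  have hm : m ≠ 0 := NeZero.ne m
  obtain ⟨D, u, f, hu, hD, huf, hf, rfl⟩ := h
  obtain ⟨D', u', f', hu', hD', huf', hf', rfl⟩ := h'
  have hf'0 : f' ≠ 0 := by
    rintro rfl
    rw [zero_pow hm] at huf'
    exact hu' ((map_eq_zero (L.thetaK iotaK.toRingHom)).mp huf')
  obtain ⟨a, w, hw, huw⟩ := exists_const_mul_pow (m := m) (u / u') (div_ne_zero hu hu') (f / f')
    (fun γ hγ => by
      have h1 := hf ⟨γ, hγ⟩
      have h2 := hf' ⟨γ, hγ⟩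
      simp only at h1 h2
      rw [map_div₀, h1, h2]
      have hχ : algebraMap ℂ Mer ((χ ⟨γ, hγ⟩ : ℂˣ) : ℂ) ≠ 0 := by
        rw [Ne, map_eq_zero]
        exact Units.ne_zero _
      field_simp)
    (by rw [div_pow, ← huf, ← huf', map_div₀])
  have ha : algebraMap Kb (L.FK Kb) a ≠ 0 := by
    intro h0
    rw [h0, zero_mul] at huw
    exact div_ne_zero hu hu' huw
  have hord : ∀ v : Place Kb (L.FK Kb),
      (D : Divisor Kb (L.FK Kb)) v - (D' : Divisor Kb (L.FK Kb)) v = v.ord w := by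
    intro v
    have h1 : v.ord (u / u') = (m : ℤ) * v.ord w := by
      rw [huw, v.ord_mul ha (pow_ne_zero m hw), Place.ord_algebraMap, zero_add, ← zpow_natCast,
        v.ord_zpow]
    rw [div_eq_mul_inv, v.ord_mul hu (inv_ne_zero hu'), v.ord_inv, hD v, hD' v] at h1
    have hm' : (m : ℤ) ≠ 0 := by exact_mod_cast hm
    apply mul_left_cancel₀ hm'
    rw [← h1]
    ring
  symm
  refine QuotientAddGroup.eq.2 ?_
  rw [AddSubgroup.mem_addSubgroupOf]
  refine ⟨w, hw, fun v => ?_⟩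
  rw [← hord v]
  simp
  ring

end

end Fermat.Agent.S48.ModL
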