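import Fermat.Agent.S48.ModL.Sup.Defs
import Fermat.Agent.S48.ModL.Sup.K2ab
import Fermat.Agent.S48.ModL.Sup.K2c

/-! # S48 / MODL, SUPPORT chain, leaf K2: additivity, injectivity, uniqueness of Kummer classes
(port of `GAL/Sup/K2.lean` to a general level `L : Lvl`) -/

set_option autoImplicit false

namespace Fermat.Agent.S48.ModL

open Fermat.Agent.S24 CongruenceSubgroup ModularCurve AlgebraicCurve
open scoped MatrixGroups

variable {L : Lvl} {m : ℕ} [NeZero m]

/-- **K2a** -/
theorem IsKummer.mul {χ χ' : L.G →* ℂˣ} {x x' : L.Jac} (h : IsKummer L m χ x)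
    (h' : IsKummer L m χ' x') : IsKummer L m (χ * χ') (x + x') :=
  h.mul' h'

/-- **K2b** -/
theorem IsKummer.eq_one_of_zero {χ : L.G →* ℂˣ} (h : IsKummer L m χ 0) : χ = 1 :=
  h.eq_one_of_zero'

/-- **K2c** -/
theorem IsKummer.unique {χ : L.G →* ℂˣ} {x x' : L.Jac} (h : IsKummer L m χ x)
    (h' : IsKummer L m χ x') : x = x' :=
  isKummer_unique h h'

end Fermat.Agent.S48.ModL
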