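import Fermat.Agent.S48.ModL.Sup.K1
import Fermat.Agent.S48.ModL.Sup.K2

/-! # S48 / MODL, SUPPORT chain: the Kummer homomorphism `(SUP_m)` for a general level
(port of `GAL/Sup/Main`, without the Hecke equivariance, which is a consequence of
`IsKummer.unique` as soon as `IsKummer.hecke` is available) -/

set_option autoImplicit false

namespace Fermat.Agent.S48.ModL

open Fermat.Agent.S24 CongruenceSubgroup ModularCurve AlgebraicCurve
open scoped MatrixGroups

/-- **(SUP_m)**: an injective homomorphism from the good additive characters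
`L.G → ℤ/m` to `L.Jac`, characterised by the Kummer relation. -/
theorem exists_kummerHom (L : Lvl) (m : ℕ) [NeZero m] :
    ∃ κ : GoodHom L m →+ L.Jac, Function.Injective κ ∧
      ∀ c : GoodHom L m, IsKummer L m (chiOf (c : Additive L.G →+ ZMod m)) (κ c) := by
  have hex : ∀ c : GoodHom L m, ∃ x : L.Jac,
      IsKummer L m (chiOf (c : Additive L.G →+ ZMod m)) x := fun c =>
    exists_isKummer L m _ (chiOf_pow _) (isGoodChar_chiOf c)
  choose k hk using hex
  have hadd : ∀ c c', k (c + c') = k c + k c' := by
    intro c c'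
    have h1 := (hk c).mul (hk c')
    rw [← chiOf_add] at h1
    exact (hk (c + c')).unique h1
  refine ⟨AddMonoidHom.mk' k hadd, ?_, hk⟩
  rw [injective_iff_map_eq_zero]
  intro c hc
  have h1 : IsKummer L m (chiOf (c : Additive L.G →+ ZMod m)) 0 := by
    have := hk c
    rwa [show k c = 0 from hc] at this
  have h2 := h1.eq_one_of_zero
  rw [← chiOf_zero (m := m)] at h2
  exact Subtype.ext (chiOf_injective h2)

/-- Kummer classes are `m`-torsion. -/
theorem IsKummer.nsmul_eq_zero {L : Lvl} {m : ℕ} [NeZero m] {c : GoodHom L m} {x : L.Jac}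
    (h : IsKummer L m (chiOf (c : Additive L.G →+ ZMod m)) x) : m • x = 0 := by
  obtain ⟨κ, -, hκ⟩ := exists_kummerHom L m
  rw [h.unique (hκ c), ← map_nsmul]
  have : m • c = 0 := by
    apply Subtype.ext
    ext γ
    simp
  rw [this, map_zero]

end Fermat.Agent.S48.ModL
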