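import Fermat.Agent.S48.ModL.Lvl

/-!
# S48 / MODL, SUPPORT chain for a general level `L : Lvl`: interface definitions

Port of `GAL/Sup/Defs.lean` (without the Hecke part).

`IsKummer L m χ x` : the class `x ∈ L.Jac` is the class of `D` where `m D = div u`,
`u ∈ L.FK Qbar`, and the analytic function attached to `u` is `h ^ m` where `h` is a meromorphic
function on the upper half plane transforming under `L.G` by the character `χ`.
-/

set_option autoImplicit false

namespace Fermat.Agent.S48.ModL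

open Fermat.Agent.S24 CongruenceSubgroup ModularCurve AlgebraicCurve
open scoped MatrixGroups

noncomputable section

/-- `h` transforms under `L.G` by the character `χ` (recall `actMer g h = h ∘ g⁻¹`). -/
def HasChar (L : Lvl) (χ : L.G →* ℂˣ) (h : Mer) : Prop :=
  ∀ g : L.G, actMer (g : SL(2, ℤ)) h = algebraMap ℂ Mer (χ g : ℂ) * h

/-- The Kummer relation between characters of `L.G` and `m`-torsion classes. -/
def IsKummer (L : Lvl) (m : ℕ) (χ : L.G →* ℂˣ) (x : L.Jac) : Prop :=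
  ∃ (D : Divisor.degZero (K := Kb) (F := L.FK Kb)) (u : L.FK Kb) (h : Mer), u ≠ 0 ∧
    (∀ v : Place Kb (L.FK Kb), v.ord u = (m : ℤ) * (D : Divisor Kb (L.FK Kb)) v) ∧
    L.thetaK iotaK.toRingHom u = h ^ m ∧ HasChar L χ h ∧ x = Pic0.mk D

/-- elements of `L.G` which are `± 1`, elliptic or parabolic -/
def IsSmall {L : Lvl} (γ : L.G) : Prop :=
  |(γ : SL(2, ℤ)) 0 0 + (γ : SL(2, ℤ)) 1 1| ≤ 2

/-- a character is good if it is trivial on `± 1`, elliptic and parabolic elements -/
def IsGoodChar {L : Lvl} (χ : L.G →* ℂˣ) : Prop := ∀ γ : L.G, IsSmall γ → χ γ = 1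

/-- additive characters `L.G → ℤ/m` killing `± 1`, elliptic and parabolic elements -/
def GoodHom (L : Lvl) (m : ℕ) : AddSubgroup (Additive L.G →+ ZMod m) where
  carrier := {c | ∀ γ : L.G, IsSmall γ → c (Additive.ofMul γ) = 0}
  zero_mem' := fun _ _ => rfl
  add_mem' := fun {a b} ha hb γ hγ => by
    rw [AddMonoidHom.add_apply, ha γ hγ, hb γ hγ, add_zero]
  neg_mem' := fun {a} ha γ hγ => by
    rw [AddMonoidHom.neg_apply, ha γ hγ, neg_zero]

/-- the `μ_m(ℂ)`-valued character `γ ↦ exp (2 π i c(γ) / m)` -/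
def chiOf {L : Lvl} {m : ℕ} [NeZero m] (c : Additive L.G →+ ZMod m) : L.G →* ℂˣ :=
  MonoidHom.toHomUnits
    { toFun := fun γ => ZMod.stdAddChar (c (Additive.ofMul γ))
      map_one' := by simp
      map_mul' := fun a b => by simp [AddChar.map_add_eq_mul] }

theorem coe_chiOf {L : Lvl} {m : ℕ} [NeZero m] (c : Additive L.G →+ ZMod m) (γ : L.G) :
    (chiOf c γ : ℂ) = ZMod.stdAddChar (c (Additive.ofMul γ)) := rfl

theorem chiOf_zero {L : Lvl} {m : ℕ} [NeZero m] : chiOf (0 : Additive L.G →+ ZMod m) = 1 := by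
  ext γ
  simp [coe_chiOf]

theorem chiOf_add {L : Lvl} {m : ℕ} [NeZero m] (c c' : Additive L.G →+ ZMod m) :
    chiOf (c + c') = chiOf c * chiOf c' := by
  ext γ
  simp [coe_chiOf, AddChar.map_add_eq_mul]

theorem chiOf_injective {L : Lvl} {m : ℕ} [NeZero m] :
    Function.Injective (chiOf : (Additive L.G →+ ZMod m) → _) := by
  intro c c' h
  ext γ
  have h1 := congrArg (fun χ : L.G →* ℂˣ => ((χ (Additive.toMul γ) : ℂˣ) : ℂ)) h
  simp only [coe_chiOf] at h1
  exact ZMod.injective_stdAddChar h1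

theorem chiOf_pow {L : Lvl} {m : ℕ} [NeZero m] (c : Additive L.G →+ ZMod m) (γ : L.G) :
    chiOf c γ ^ m = 1 := by
  ext
  rw [Units.val_pow_eq_pow_val, coe_chiOf, ← AddChar.map_nsmul_eq_pow]
  simp

theorem isGoodChar_chiOf {L : Lvl} {m : ℕ} [NeZero m] (c : GoodHom L m) :
    IsGoodChar (chiOf (c : Additive L.G →+ ZMod m)) := by
  intro γ hγ
  ext
  rw [coe_chiOf, c.2 γ hγ]
  simp

end

end Fermat.Agent.S48.ModL
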