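import Fermat.Agent.S48.ModL.Sup.K1b
import Fermat.Agent.S48.ModL.Sup.EisField
import Fermat.Agent.S48.ModL.AD.Kappa
import Fermat.Agent.GAL.Sup.K1a

/-! # S48 / MODL, SUPPORT chain, leaf K1a: descent from `ℂ` to `Qbar` (port of `GAL/Sup/K1a`) -/

set_option autoImplicit false

namespace Fermat.Agent.S48.ModL

open Fermat.Agent.S24 Fermat.Agent.GAL CongruenceSubgroup ModularCurve AlgebraicCurve UpperHalfPlane
open WithZero
open scoped MatrixGroups

theorem HasChar.mul_thetaK {L : Lvl} {χ : L.G →* ℂˣ} {h : Mer} (hh : HasChar L χ h)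
    (w : L.FK ℂ) : HasChar L χ (h * L.thetaK (RingHom.id ℂ) w) := by
  intro g
  rw [map_mul, hh g, L.actMer_thetaK (RingHom.id ℂ) g.2, mul_assoc]

/-- **K1a (DescentMain)** -/
theorem exists_root_over_Kb' (L : Lvl) (m : ℕ) [NeZero m] (χ : L.G →* ℂˣ)
    (hχ : ∀ g, χ g ^ m = 1) (hgood : IsGoodChar χ) :
    ∃ (u : L.FK Kb) (h : Mer), u ≠ 0 ∧ L.thetaK iotaK.toRingHom u = h ^ m ∧ HasChar L χ h := by
  have hm : m ≠ 0 := NeZero.ne m
  obtain ⟨h0, U, f, hh0, hf, hchar, hU, hθ, hfU⟩ := exists_eis_root L m χ hχ hgood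
  set h0M : Mer := algebraMap Hol Mer h0 with hh0M
  set y : LaurentSeries ℂ := toLaurent 1 U with hy
  -- divisibility of the divisor over `ℂ`
  have hdiv : ∀ v : Place ℂ (L.FK ℂ), (m : ℤ) ∣ v.ord f := fun v =>
    dvd_ord_of_root_of_hasChar L (RingHom.id ℂ) m χ hgood f h0M hf hθ hchar v
  -- no finite poles
  have hj0 : L.jK ℂ ≠ 0 := fun h0 => L.transcendental_jK ℂ (h0 ▸ isAlgebraic_zero)
  have hpole : ∀ v : Place ℂ (L.FK ℂ), 0 ≤ v.ord (L.jK ℂ) → 0 ≤ v.ord f := by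
    intro v hv
    obtain ⟨τ, k, hk, h1, -⟩ := L.exists_point_of_place (RingHom.id ℂ) v
      ((Place.mem_iff_ord_nonneg v hj0).2 hv)
    have h2 := h1 f hf
    rw [hθ, hh0M, ← map_pow, merVal_algebraMap] at h2
    have h3 := holVal_le_one τ (h0 ^ m)
    rw [h2, ← exp_zero, exp_le_exp] at h3
    have hk' : (0 : ℤ) < k := by exact_mod_cast hk
    by_contra hneg
    push Not at hneg
    nlinarith
  -- the stabiliser
  obtain ⟨H, hH, hHf⟩ := L.exists_finiteIndex_stab m f hf hdiv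
  -- a fixed multiple
  have hfix : ∀ σ : ℂ ≃ₐ[ℚ] ℂ, arithmeticGalois L.F₀ σ • L.jK ℂ = L.jK ℂ := by
    intro σ
    apply Subtype.ext
    rw [coe_arithmeticGalois_smul]
    exact Lvl.coeffMap_coeffEmb (σ : ℂ →+* ℂ) (L.gen L.i₀)
  obtain ⟨w, hw, hwfix⟩ := exists_fixed_multiple L.F₀ (L.jK ℂ)
    (L.isFiniteParam_jK (RingHom.id ℂ)) hfix m hm f hf y hfU.symm hpole
  set z : LaurentSeries ℂ := y * (w : LaurentSeries ℂ) with hz
  have hzalg : ∀ n, IsAlgebraic ℚ (z.coeff n) := by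
    intro n
    refine Descent.isAlgebraic_of_fixed H _ fun σ hσ => ?_
    have h1 := congrArg (fun s : LaurentSeries ℂ => s.coeff n) (hwfix σ (hHf σ hσ))
    simpa [coeffMap_coeff] using h1
  obtain ⟨z0, hz0⟩ := exists_coeffMap_iotaK_eq z hzalg
  -- `z ^ m = f * w ^ m`
  have hzm : z ^ m = ((f * w ^ m : L.FK ℂ) : LaurentSeries ℂ) := by
    rw [hz, mul_pow, ← hfU]
    rfl
  have hmem : z0 ^ m ∈ L.FKf Kb := by
    apply Descent.mem_laurentBaseChange_of_coeffMap_mem iotaK.toRingHom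
    rw [map_pow, hz0, hzm]
    exact (f * w ^ m : L.FK ℂ).2
  set u : L.FK Kb := ⟨z0 ^ m, hmem⟩ with hu
  have hθu : L.thetaK iotaK.toRingHom u = L.thetaK (RingHom.id ℂ) (f * w ^ m) := by
    rw [L.thetaK_apply, L.thetaK_apply]
    congr 1
    rw [L.thetaPer_eq_iff, L.toLaurent_thetaPer, coeffMap_id, ← hzm, ← hz0, ← map_pow]
  refine ⟨u, h0M * L.thetaK (RingHom.id ℂ) w, ?_, ?_, hchar.mul_thetaK w⟩
  · intro h0
    have h1 : L.thetaK iotaK.toRingHom u = 0 := by rw [h0, map_zero]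
    rw [hθu, map_eq_zero] at h1
    exact mul_ne_zero hf (pow_ne_zero _ hw) h1
  · rw [hθu, map_mul, map_pow, hθ, mul_pow]

end Fermat.Agent.S48.ModL
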