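import Fermat.Agent.S48.ModL.Sup.Defs
import Fermat.Agent.S48.ModL.AD.Criterion
import Fermat.Agent.GAL.Sup.K1b

/-! # S48 / MODL, SUPPORT chain, leaf K1b: the divisor of `u` is divisible by `m`
(from `L.dvd_ord_of_root`; port of `GAL/Sup/K1b`) -/

set_option autoImplicit false

namespace Fermat.Agent.S48.ModL

open Fermat.Agent.S24 Fermat.Agent.GAL CongruenceSubgroup ModularCurve AlgebraicCurve UpperHalfPlane
open scoped MatrixGroups

/-- a function transforming by a good character is invariant under the small elements -/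
theorem HasChar.actMer_of_isSmall {L : Lvl} {χ : L.G →* ℂˣ} (hgood : IsGoodChar χ) {h : Mer}
    (hh : HasChar L χ h) (γ : L.G) (hγ : IsSmall γ) : actMer (γ : SL(2, ℤ)) h = h := by
  rw [hh γ, hgood γ hγ]
  simp

/-- **K1b** over any algebraically closed constant field. -/
theorem dvd_ord_of_root_of_hasChar (L : Lvl) {K : Type*} [Field K] [Algebra ℚ K] [IsAlgClosed K]
    (ι : K →+* ℂ) (m : ℕ) [NeZero m] (χ : L.G →* ℂˣ)
    (hgood : IsGoodChar χ) (u : L.FK K) (h : Mer) (hu : u ≠ 0)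
    (huh : L.thetaK ι u = h ^ m) (hh : HasChar L χ h) (v : Place K (L.FK K)) :
    (m : ℤ) ∣ v.ord u := by
  have hsmall := hh.actMer_of_isSmall hgood
  refine L.dvd_ord_of_root ι (NeZero.ne m) u hu h huh.symm ?_ ?_ v
  · intro γ hγ τ hτ
    exact hsmall ⟨γ, hγ⟩ (abs_trace_le_two_of_smul_eq γ τ hτ)
  · intro γ hγ g n hγg
    refine hsmall ⟨γ, hγ⟩ ?_
    show |γ 0 0 + γ 1 1| ≤ 2
    rw [hγg, trace_conj_T_inv_pow]
    norm_num

/-- **K1b**: the divisor of `u` is divisible by `m`. -/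
theorem dvd_ord_of_root' (L : Lvl) (m : ℕ) [NeZero m] (χ : L.G →* ℂˣ)
    (hgood : IsGoodChar χ) (u : L.FK Kb) (h : Mer) (hu : u ≠ 0)
    (huh : L.thetaK iotaK.toRingHom u = h ^ m)
    (hh : HasChar L χ h) (v : Place Kb (L.FK Kb)) : (m : ℤ) ∣ v.ord u :=
  dvd_ord_of_root_of_hasChar L iotaK.toRingHom m χ hgood u h hu huh hh v

end Fermat.Agent.S48.ModL
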