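import Fermat.Agent.S48.ModL.Sup.Defs
import Fermat.Agent.S48.ModL.Sup.K2ab
import Fermat.Agent.S48.ModL.Sup.K1b
import Fermat.Agent.S48.ModL.Sup.K1a

/-! # S48 / MODL, SUPPORT chain, leaf K1: existence of Kummer classes (port of `GAL/Sup/K1`) -/

set_option autoImplicit false

namespace Fermat.Agent.S48.ModL

open Fermat.Agent.S24 CongruenceSubgroup ModularCurve AlgebraicCurve
open scoped MatrixGroups

/-- **K1a (DescentMain)**: a good character of exponent `m` is the character of an `m`-th root of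
(the analytic function attached to) a function defined over `Qbar`. -/
theorem exists_root_over_Kb (L : Lvl) (m : ℕ) [NeZero m] (χ : L.G →* ℂˣ)
    (hχ : ∀ g, χ g ^ m = 1) (hgood : IsGoodChar χ) :
    ∃ (u : L.FK Kb) (h : Mer), u ≠ 0 ∧ L.thetaK iotaK.toRingHom u = h ^ m ∧ HasChar L χ h :=
  exists_root_over_Kb' L m χ hχ hgood

/-- **K1b (AD6 over `Qbar`)**: the divisor of `u` is divisible by `m`. -/
theorem dvd_ord_of_root (L : Lvl) (m : ℕ) [NeZero m] (χ : L.G →* ℂˣ)
    (hgood : IsGoodChar χ) (u : L.FK Kb) (h : Mer) (hu : u ≠ 0)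
    (huh : L.thetaK iotaK.toRingHom u = h ^ m)
    (hh : HasChar L χ h) (v : Place Kb (L.FK Kb)) : (m : ℤ) ∣ v.ord u :=
  dvd_ord_of_root' L m χ hgood u h hu huh hh v

/-- **K1c**: a function whose divisor is divisible by `m` gives a degree zero divisor. -/
theorem exists_degZero_of_dvd_ord (L : Lvl) (m : ℕ) [NeZero m] (u : L.FK Kb) (hu : u ≠ 0)
    (h : ∀ v : Place Kb (L.FK Kb), (m : ℤ) ∣ v.ord u) :
    ∃ D : Divisor.degZero (K := Kb) (F := L.FK Kb),
      ∀ v : Place Kb (L.FK Kb), v.ord u = (m : ℤ) * (D : Divisor Kb (L.FK Kb)) v :=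
  exists_degZero_of_dvd_ord' L m u hu h

/-- **K1**: existence of Kummer classes. -/
theorem exists_isKummer (L : Lvl) (m : ℕ) [NeZero m] (χ : L.G →* ℂˣ)
    (hχ : ∀ g, χ g ^ m = 1) (hgood : IsGoodChar χ) : ∃ x : L.Jac, IsKummer L m χ x := by
  obtain ⟨u, h, hu, huh, hh⟩ := exists_root_over_Kb L m χ hχ hgood
  obtain ⟨D, hD⟩ := exists_degZero_of_dvd_ord L m u hu (dvd_ord_of_root L m χ hgood u h hu huh hh)
  exact ⟨Pic0.mk D, D, u, h, hu, hD, huh, hh, rfl⟩

end Fermat.Agent.S48.ModL
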