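import Fermat.Agent.RED.QEP0
import Fermat.Agent.S48.ModL.AD.Degree

/-!
# S48 / MODL : the `q`-expansion principle over a general constant field `K ⊆ ℂ`  ([P-SUP1])

A holomorphic `L.G`-invariant function of moderate growth at all cusps whose `q`-expansion has
coefficients in `K` is (the image of) an element of the function field `L.FK K`.
Port of `GAL/Sup/QEPK` (+ the part of `S24/CharpolyAlt`, `RED/QEP0` it uses).
-/

set_option autoImplicit false

namespace Fermat.Agent.S48.ModL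

open Fermat.Agent.S24 Fermat.Agent.RED ModularCurve IntermediateField CongruenceSubgroup
open UpperHalfPlane
open scoped MatrixGroups

noncomputable section

/-- `L.G`-invariant holomorphic functions all of whose conjugates have moderate growth. -/
def Lvl.RN (L : Lvl) : Subalgebra ℂ Hol where
  carrier := {f | (∀ γ ∈ L.G, actHol γ f = f) ∧ ∀ g : SL(2, ℤ), ModGrowth (actHol g f : ℍ → ℂ)}
  mul_mem' := by
    rintro f g ⟨hf1, hf2⟩ ⟨hg1, hg2⟩
    refine ⟨fun γ hγ => by rw [map_mul, hf1 γ hγ, hg1 γ hγ], fun s => ?_⟩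
    rw [map_mul]; exact (hf2 s).mul (hg2 s)
  add_mem' := by
    rintro f g ⟨hf1, hf2⟩ ⟨hg1, hg2⟩
    refine ⟨fun γ hγ => by rw [map_add, hf1 γ hγ, hg1 γ hγ], fun s => ?_⟩
    rw [map_add]; exact (hf2 s).add (hg2 s)
  algebraMap_mem' c :=
    ⟨fun γ _ => AlgEquiv.commutes _ c, fun s => by
      rw [AlgEquiv.commutes]; exact ModGrowth.const c⟩

variable (L : Lvl)

theorem Lvl.hol_mem_RN (i : L.ι) : L.hol i ∈ L.RN := ⟨L.inv i, L.growth i⟩

theorem Lvl.isGInv_of_mem_RN {f : Hol} (hf : f ∈ L.RN) : AD.IsGInv L.G (f : ℍ → ℂ) := by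
  intro γ hγ τ
  have h1 := hf.1 γ⁻¹ (inv_mem hγ)
  have h2 := congrFun (congrArg Subtype.val h1) τ
  rw [actHol_apply, inv_inv] at h2
  exact h2

theorem Lvl.charpoly_coeff_of_mem_RN {f : Hol} (hf : f ∈ L.RN) (i : ℕ) :
    ∃ p : Polynomial ℂ, (∏ x : L.X, (Polynomial.X -
      Polynomial.C (actMer (Quotient.out x) (algebraMap Hol Mer f)))).coeff i
      = Polynomial.aeval (algebraMap Hol Mer (jdHol 1)) p := by
  have huS : ∀ c : AD.Q L.G, AD.conj L.G (f : ℍ → ℂ) c ∈ holGrowth := fun c =>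
    ⟨(actHol (Quotient.out c) f).2, hf.2 (Quotient.out c)⟩
  obtain ⟨P, hP⟩ := AD.charpoly_coeff_of holGrowth holGrowthToMer jHolGrowth
    exists_aeval_of_invariant (L.isGInv_of_mem_RN hf) huS i
  refine ⟨P, ?_⟩
  have e : ∀ c : AD.Q L.G, holGrowthToMer ⟨AD.conj L.G (f : ℍ → ℂ) c, huS c⟩
      = actMer (Quotient.out c) (algebraMap Hol Mer f) := fun c =>
    (actMer_algebraMap (Quotient.out c) f).symm
  simp only [e] at hP
  have hJ : holGrowthToMer jHolGrowth = algebraMap Hol Mer (jdHol 1) := rfl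
  rw [hJ] at hP
  rw [← hP]

variable {K : Type*} [Field K] [Algebra ℚ K] (ι : K →+* ℂ)

set_option synthInstance.maxHeartbeats 400000 in
/-- **`q`-expansion principle over `K`.** -/
theorem Lvl.mem_FKf_of_mem_RN (h : Hol) (hh : h ∈ L.RN) (u : MerPer 1)
    (hu : toMer 1 u = algebraMap Hol Mer h) (s : LaurentSeries K)
    (hs : toLaurent 1 u = coeffMap ι s) : s ∈ L.FKf K := by
  classical
  obtain ⟨hfd, hdeg⟩ := L.degreeK ι
  let S : Finset Mer :=
    insert (algebraMap Hol Mer h) ((L.finite_genSetFK K).toFinset.image (L.thetaK ι))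
  have hS : Algebra.adjoin ℂ (S : Set Mer) ≤ L.RN.map (IsScalarTower.toAlgHom ℂ Hol Mer) := by
    rw [Algebra.adjoin_le_iff]
    intro z hz
    simp only [S, Finset.coe_insert, Finset.coe_image, Set.Finite.coe_toFinset,
      Set.mem_insert_iff, Set.mem_image] at hz
    rcases hz with rfl | ⟨_, ⟨i, rfl⟩, rfl⟩
    · exact ⟨h, hh, rfl⟩
    · exact ⟨L.hol i, L.hol_mem_RN i, (L.thetaK_genK ι i).symm⟩
  have hJ : toMerAlg (L.thetaPer ι (L.jK K)) = algebraMap Hol Mer (jdHol 1) :=
    L.thetaK_jK ι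
  obtain ⟨f, hf⟩ := mem_of_conjugates (L.FKf K).val (L.jK K) ι
    toMerAlg toLaurentAlg (L.transcendental_jK K) (L.thetaPer ι)
    (fun f => L.toLaurent_thetaPer ι f) S
    (fun x : L.X => (actMer (Quotient.out x)).toAlgHom)
    ((1 : SL(2, ℤ)) : L.X)
    (by
      intro θ hθ
      obtain ⟨f, hf, rfl⟩ := hS hθ
      obtain ⟨γ, hγ⟩ := QuotientGroup.mk_out_eq_mul L.G (1 : SL(2, ℤ))
      show actMer (Quotient.out ((1 : SL(2, ℤ)) : L.X)) (algebraMap Hol Mer f) = algebraMap Hol Mer f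
      rw [actMer_algebraMap, hγ, one_mul, hf.1 γ γ.2])
    (by
      intro θ hθ i
      obtain ⟨f, hf, rfl⟩ := hS hθ
      rw [hJ]
      exact L.charpoly_coeff_of_mem_RN hf i)
    (by rw [hdeg, Nat.card_eq_fintype_card])
    (by
      intro f
      rw [hJ]
      show L.thetaK ι f ∈ (IntermediateField.adjoin ℂ⟮algebraMap Hol Mer (jdHol 1)⟯
        (S : Set Mer)).toSubfield
      apply L.map_mem_of_gen
      · intro a
        show L.thetaK ι (algebraMap K (L.FK K) a) ∈ IntermediateField.adjoin _ (S : Set Mer)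
        rw [L.thetaK_algebraMap,
          IsScalarTower.algebraMap_apply ℂ ℂ⟮algebraMap Hol Mer (jdHol 1)⟯ Mer]
        exact IntermediateField.algebraMap_mem _ _
      · intro i
        show L.thetaK ι (L.genK K i) ∈ IntermediateField.adjoin _ (S : Set Mer)
        apply IntermediateField.subset_adjoin
        simp only [S, Finset.coe_insert, Finset.coe_image, Set.Finite.coe_toFinset]
        exact Or.inr ⟨L.genK K i, ⟨i, rfl⟩, rfl⟩)
    u (by rw [toMerAlg_apply, hu]; simp [S]) s hs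
  rw [← hf]
  exact f.2

/-- The element of `L.FK K` attached to a function in `L.RN` with `K`-rational `q`-expansion. -/
theorem Lvl.thetaK_eq_of_mem_RN (h : Hol) (hh : h ∈ L.RN) (u : MerPer 1)
    (hu : toMer 1 u = algebraMap Hol Mer h) (s : LaurentSeries K)
    (hs : toLaurent 1 u = coeffMap ι s) :
    L.thetaK ι ⟨s, L.mem_FKf_of_mem_RN ι h hh u hu s hs⟩ = algebraMap Hol Mer h := by
  rw [← hu, L.thetaK_apply]
  congr 1
  rw [L.thetaPer_eq_iff]
  exact hs.symm

end

end Fermat.Agent.S48.ModL
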